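import Mathlib
import Fermat.Prelude.Def_AutomorphicForm_HeckeEigensystem

/-!
# Row LT, tower T7, leaf SD.4 `BCUnitC` of helper534's cut of `SpecDownC` (helper706): the core

OFF-MAIN.  Mathlib + the Prelude definition `AutomorphicForm.satakePow` only.

For `a, b ∈ ℂ` with `|b| = 1`, `conj a = a conj b` and `|a| √q ≤ q + 1` (`q ≥ 1`):
`conj (P_f) = P_f conj (b^f)` and `|P_f| √(q^f) ≤ q^f + 1` for `P_f = satakePow f a b`.

Proof: `a = α + β`, `b = α β`, `P_f = α^f + β^f`; `conj a = a conj b` and `|b| = 1` give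
`{1 / conj α, 1 / conj β} = {α, β}`, so `|α| = |β| = 1` or `β = 1 / conj α`; in both cases
`max (|α|, |β|) =: t ≥ 1`, `min = 1 / t`, `t ≤ √q`, and `x ↦ x + 1/x` increases on `[1, ∞)`.
-/

set_option autoImplicit false

open AutomorphicForm
open scoped ComplexConjugate

noncomputable section

namespace Fermat.Agent.LT.T7.H706

theorem satakePow_eq706 (α β : ℂ) (n : ℕ) :
    satakePow n (α + β) (α * β) = α ^ n + β ^ n := by
  induction n using Nat.strong_induction_on with
  | _ n ih =>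
    match n with
    | 0 => rw [satakePow_zero]; norm_num
    | 1 => rw [satakePow_one]; ring
    | (k + 2) =>
      rw [satakePow_add_two, ih (k + 1) (by omega), ih k (by omega)]
      ring

theorem conj_satakePow706 (a b : ℂ) (hb : ‖b‖ = 1) (ha : conj a = a * conj b) (n : ℕ) :
    conj (satakePow n a b) = satakePow n a b * conj (b ^ n) := by
  have hbb : b * conj b = 1 := by
    rw [Complex.mul_conj, Complex.normSq_eq_norm_sq, hb]
    norm_num
  induction n using Nat.strong_induction_on with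
  | _ n ih =>
    match n with
    | 0 =>
      rw [satakePow_zero, pow_zero, map_one, mul_one]
      exact Complex.conj_ofNat 2
    | 1 => rw [satakePow_one, pow_one]; exact ha
    | (k + 2) =>
      rw [satakePow_add_two, map_sub, map_mul, map_mul, ih (k + 1) (by omega), ih k (by omega), ha,
        map_pow, map_pow, map_pow]
      have : satakePow k a b * conj b ^ k
          = (b * conj b) * (satakePow k a b * conj b ^ k) := by rw [hbb, one_mul]
      rw [this]
      ring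

/-- `x + 1/x` increases on `[1, ∞)`. -/
theorem add_inv_mono706 {x y : ℝ} (hx : 1 ≤ x) (hxy : x ≤ y) : x + x⁻¹ ≤ y + y⁻¹ := by
  have hx0 : 0 < x := lt_of_lt_of_le one_pos hx
  have hy0 : 0 < y := lt_of_lt_of_le hx0 hxy
  have hy1 : 1 ≤ y := hx.trans hxy
  have h : y + y⁻¹ - (x + x⁻¹) = (y - x) * (1 - (x * y)⁻¹) := by
    field_simp
    ring
  have h2 : (x * y)⁻¹ ≤ 1 := inv_le_one_of_one_le₀ (by nlinarith)
  have h3 : 0 ≤ (y - x) * (1 - (x * y)⁻¹) :=
    mul_nonneg (sub_nonneg.2 hxy) (sub_nonneg.2 h2)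
  linarith

/-- The bound for a pair `(α, β)` with `|α| = t`, `|β| = t⁻¹`, `1 ≤ t ≤ s`. -/
theorem norm_pow_add_pow_le706 (α β : ℂ) (t s : ℝ) (ht : 1 ≤ t) (hts : t ≤ s)
    (hα : ‖α‖ = t) (hβ : ‖β‖ = t⁻¹) (f : ℕ) :
    ‖α ^ f + β ^ f‖ ≤ s ^ f + (s ^ f)⁻¹ := by
  have ht0 : 0 < t := lt_of_lt_of_le one_pos ht
  calc ‖α ^ f + β ^ f‖ ≤ ‖α ^ f‖ + ‖β ^ f‖ := norm_add_le _ _
    _ = t ^ f + (t ^ f)⁻¹ := by rw [norm_pow, norm_pow, hα, hβ, inv_pow]
    _ ≤ s ^ f + (s ^ f)⁻¹ :=
        add_inv_mono706 (one_le_pow₀ ht) (pow_le_pow_left₀ ht0.le hts f)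

theorem norm_satakePow_le706 (a b : ℂ) (hb : ‖b‖ = 1) (ha : conj a = a * conj b)
    (q : ℝ) (hq : 1 ≤ q) (hbound : ‖a‖ * Real.sqrt q ≤ q + 1) (f : ℕ) :
    ‖satakePow f a b‖ * Real.sqrt (q ^ f) ≤ q ^ f + 1 := by
  have hq0 : 0 ≤ q := zero_le_one.trans hq
  set s : ℝ := Real.sqrt q with hs
  have hs1 : 1 ≤ s := by
    rw [hs, ← Real.sqrt_one]
    exact Real.sqrt_le_sqrt hq
  have hs0 : 0 < s := lt_of_lt_of_le one_pos hs1
  have hss : s * s = q := Real.mul_self_sqrt hq0
  have hsf : Real.sqrt (q ^ f) = s ^ f := by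
    rw [← hss, ← sq, ← pow_mul, mul_comm, pow_mul, Real.sqrt_sq (pow_nonneg hs0.le f)]
  have hqf : q ^ f = s ^ f * s ^ f := by rw [← mul_pow, hss]
  -- the roots
  obtain ⟨z, hz⟩ := IsAlgClosed.exists_eq_mul_self (a ^ 2 - 4 * b)
  set α : ℂ := (a + z) / 2 with hαdef
  set β : ℂ := (a - z) / 2 with hβdef
  have hsum : α + β = a := by rw [hαdef, hβdef]; ring
  have hprod : α * β = b := by
    rw [hαdef, hβdef]
    have : (a + z) / 2 * ((a - z) / 2) = (a ^ 2 - z * z) / 4 := by ring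
    rw [this, ← hz]
    ring
  have hP : satakePow f a b = α ^ f + β ^ f := by
    rw [← hsum, ← hprod]
    exact satakePow_eq706 α β f
  have hnprod : ‖α‖ * ‖β‖ = 1 := by rw [← norm_mul, hprod, hb]
  have hα0 : α ≠ 0 := by
    intro h
    rw [h, norm_zero, zero_mul] at hnprod
    exact zero_ne_one hnprod
  have hβ0 : β ≠ 0 := by
    intro h
    rw [h, norm_zero, mul_zero] at hnprod
    exact zero_ne_one hnprod
  have hnα : 0 < ‖α‖ := norm_pos_iff.2 hα0
  have hnβ : 0 < ‖β‖ := norm_pos_iff.2 hβ0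
  have hβinv : ‖β‖ = ‖α‖⁻¹ := eq_inv_of_mul_eq_one_right hnprod
  have hαinv : ‖α‖ = ‖β‖⁻¹ := eq_inv_of_mul_eq_one_left hnprod
  -- the dichotomy
  have hcα : conj α ≠ 0 := (map_ne_zero (starRingEnd ℂ)).2 hα0
  have hcβ : conj β ≠ 0 := (map_ne_zero (starRingEnd ℂ)).2 hβ0
  have hkey : (α * conj α - 1) * (β * conj α - 1) = 0 := by
    have h1 : conj α + conj β = (α + β) * (conj α * conj β) := by
      rw [← map_add, hsum, ← map_mul, hprod]
      exact ha
    have h2 : (α * β) * (conj α * conj β) = 1 := by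
      rw [← map_mul, hprod, Complex.mul_conj, Complex.normSq_eq_norm_sq, hb]
      norm_num
    have h3 : (α * conj α - 1) * (β * conj α - 1) * conj β
        = conj α * ((α * β) * (conj α * conj β)) - (α + β) * (conj α * conj β)
          + conj β := by ring
    have h4 : (α * conj α - 1) * (β * conj α - 1) * conj β = 0 := by
      rw [h3, h2, ← h1]
      ring
    rcases mul_eq_zero.1 h4 with h | h
    · exact h
    · exact absurd h hcβ
  -- in both cases: the larger of the two norms is at most `s`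
  have hle : ∀ (α' β' : ℂ), ‖α'‖ * ‖β'‖ = 1 → 1 ≤ ‖α'‖ →
      (‖α'‖ = 1 ∨ ‖a‖ = ‖α'‖ + ‖α'‖⁻¹) → ‖α'‖ ≤ s := by
    intro α' β' _ h1 hcase
    rcases hcase with h | h
    · rw [h]; exact hs1
    · set t := ‖α'‖ with ht
      have ht0 : 0 < t := lt_of_lt_of_le one_pos h1
      rw [h, ← hss] at hbound
      have h5 : (t + t⁻¹) * s * t = (t * t + 1) * s := by
        field_simp
      have h6 : (t * t + 1) * s ≤ (s * s + 1) * t := by
        rw [← h5]
        exact mul_le_mul_of_nonneg_right hbound ht0.le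
      by_contra hcon
      rw [not_le] at hcon
      have h7 : 0 < (t - s) * (t * s - 1) :=
        mul_pos (sub_pos.2 hcon) (by nlinarith)
      nlinarith
  -- norm of `a` in the second case
  have hcase : (‖α‖ = 1 ∧ ‖β‖ = 1) ∨ ‖a‖ = ‖α‖ + ‖α‖⁻¹ := by
    rcases mul_eq_zero.1 hkey with h | h
    · left
      have h1 : α * conj α = 1 := sub_eq_zero.1 h
      rw [Complex.mul_conj, Complex.normSq_eq_norm_sq] at h1
      have h2 : ‖α‖ ^ 2 = 1 := by exact_mod_cast h1
      have h3 : ‖α‖ = 1 := by nlinarith [norm_nonneg α]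
      refine ⟨h3, ?_⟩
      rw [hβinv, h3, inv_one]
    · right
      have h1 : β * conj α = 1 := sub_eq_zero.1 h
      have h2 : β = α * ((‖α‖ ^ 2 : ℝ) : ℂ)⁻¹ := by
        have h3 : α * conj α = ((‖α‖ ^ 2 : ℝ) : ℂ) := by
          rw [Complex.mul_conj, Complex.normSq_eq_norm_sq]
        have h4 : ((‖α‖ ^ 2 : ℝ) : ℂ) ≠ 0 := by
          rw [← h3]
          exact mul_ne_zero hα0 hcα
        field_simp
        rw [← h3, ← mul_assoc, mul_comm β α, mul_assoc, h1, mul_one] 
      have h5 : a = α * (((1 + (‖α‖ ^ 2)⁻¹ : ℝ)) : ℂ) := by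
        rw [← hsum, h2]
        push_cast
        ring
      rw [h5, norm_mul, Complex.norm_real, Real.norm_of_nonneg (by positivity)]
      field_simp
  -- conclusion
  have hfinal : ‖α ^ f + β ^ f‖ ≤ s ^ f + (s ^ f)⁻¹ := by
    rcases le_total 1 ‖α‖ with h1 | h1
    · have hcase' : ‖α‖ = 1 ∨ ‖a‖ = ‖α‖ + ‖α‖⁻¹ := by
        rcases hcase with h | h
        · exact Or.inl h.1
        · exact Or.inr h
      exact norm_pow_add_pow_le706 α β ‖α‖ s h1 (hle α β hnprod h1 hcase') rfl hβinv f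
    · have h1' : 1 ≤ ‖β‖ := by
        rw [hβinv]
        exact (one_le_inv₀ hnα).2 h1
      have hcase' : ‖β‖ = 1 ∨ ‖a‖ = ‖β‖ + ‖β‖⁻¹ := by
        rcases hcase with h | h
        · exact Or.inl h.2
        · right
          rw [h, hβinv, inv_inv, add_comm]
      have := norm_pow_add_pow_le706 β α ‖β‖ s h1'
        (hle β α (by rw [mul_comm]; exact hnprod) h1' hcase') rfl hαinv f
      rwa [add_comm] at this
  rw [hP, hsf, hqf]
  have hsf0 : 0 < s ^ f := pow_pos hs0 f
  calc ‖α ^ f + β ^ f‖ * s ^ f ≤ (s ^ f + (s ^ f)⁻¹) * s ^ f :=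
        mul_le_mul_of_nonneg_right hfinal hsf0.le
    _ = s ^ f * s ^ f + 1 := by
        field_simp

end Fermat.Agent.LT.T7.H706

end
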